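import Mathlib

/-!
# An auxiliary prime for the quadratic case
-/

set_option autoImplicit false

namespace Fermat.Agent.P2.Hasse

/-- the condition at an odd prime `q` -/
theorem exists_residue (q : ℕ) (hq : q.Prime) (hq2 : q ≠ 2) :
    ∃ a : ℕ, a.Coprime q ∧ ∀ r : ℕ, r.Prime → r % 4 = 3 → r ≠ q → r ≡ a [MOD q] →
      ¬ IsSquare ((q : ℕ) : ZMod r) := by
  have hqF : Fact q.Prime := ⟨hq⟩
  have hodd : q % 4 = 1 ∨ q % 4 = 3 := by
    have h1 : q % 2 = 1 := hq.eq_two_or_odd.resolve_left hq2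
    omega
  rcases hodd with h | h
  · obtain ⟨b, hb⟩ := FiniteField.exists_nonsquare (F := ZMod q) (by
      rw [ZMod.ringChar_zmod_n]
      exact hq2)
    have hb0 : b ≠ 0 := by
      rintro rfl
      exact hb ⟨0, by simp⟩
    refine ⟨b.val, ?_, fun r hr hr4 hrq hra => ?_⟩
    · have := ZMod.isUnit_iff_coprime b.val q
      rw [ZMod.natCast_zmod_val] at this
      exact this.mp (Ne.isUnit hb0)
    · have hrF : Fact r.Prime := ⟨hr⟩
      have hr2 : r ≠ 2 := by rintro rfl; omega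
      rw [← ZMod.exists_sq_eq_prime_iff_of_mod_four_eq_one h hr2]
      have h1 : ((r : ℕ) : ZMod q) = b := by
        rw [(ZMod.natCast_eq_natCast_iff r b.val q).mpr hra, ZMod.natCast_zmod_val]
      rw [h1]
      exact hb
  · refine ⟨1, Nat.coprime_one_left q, fun r hr hr4 hrq hra => ?_⟩
    have hrF : Fact r.Prime := ⟨hr⟩
    rw [ZMod.exists_sq_eq_prime_iff_of_mod_four_eq_three hr4 h hrq, not_not]
    have h1 : ((r : ℕ) : ZMod q) = 1 := by
      rw [(ZMod.natCast_eq_natCast_iff r 1 q).mpr hra, Nat.cast_one]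
    rw [h1]
    exact ⟨1, by simp⟩

/-- **The auxiliary prime.** -/
theorem exists_aux_prime_two (S : Finset ℕ) (hS : ∀ q ∈ S, q.Prime) (B : ℕ) :
    ∃ r : ℕ, r.Prime ∧ B < r ∧ r ∉ S ∧ r % 8 = 3 ∧
      ∀ q ∈ S, (q : ZMod r) ^ ((r - 1) / 2) ≠ 1 := by
  classical
  choose! a ha1 ha2 using fun (q : ℕ) (h : q.Prime ∧ q ≠ 2) => exists_residue q h.1 h.2
  set T : Finset ℕ := insert 8 (S.filter (· ≠ 2)) with hT
  have hT' : ∀ i ∈ T, i = 8 ∨ (i.Prime ∧ i ≠ 2) := by
    intro i hi
    rw [hT, Finset.mem_insert, Finset.mem_filter] at hi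
    rcases hi with h | ⟨h1, h2⟩
    · exact Or.inl h
    · exact Or.inr ⟨hS i h1, h2⟩
  have h8 : ¬ Nat.Prime 8 := by norm_num
  have hcop8 : ∀ i : ℕ, i.Prime → i ≠ 2 → Nat.Coprime 8 i := by
    intro i hi hi2
    have : Nat.Coprime (2 ^ 3) i :=
      Nat.Coprime.pow_left 3 ((Nat.coprime_primes Nat.prime_two hi).mpr (Ne.symm hi2))
    exact this
  obtain ⟨k, hk⟩ := Nat.chineseRemainderOfFinset (fun i => if i = 8 then 3 else a i)
    (fun i => i) T (fun i hi => by
      rcases hT' i hi with h | h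
      · rw [h]; norm_num
      · exact h.1.ne_zero) (by
      intro i hi j hj hij
      show Nat.Coprime i j
      rcases hT' i hi with rfl | h <;> rcases hT' j hj with h' | h'
      · exact absurd h'.symm hij
      · exact hcop8 j h'.1 h'.2
      · rw [h']; exact (hcop8 i h.1 h.2).symm
      · exact (Nat.coprime_primes h.1 h'.1).mpr hij)
  set M : ℕ := ∏ i ∈ T, i with hM
  have hM0 : M ≠ 0 := by
    rw [hM, Finset.prod_ne_zero_iff]
    intro i hi
    rcases hT' i hi with h | h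
    · rw [h]; norm_num
    · exact h.1.ne_zero
  have hkM : Nat.Coprime k M := by
    rw [hM]
    refine Nat.Coprime.prod_right fun i hi => ?_
    have h1 := hk i hi
    have h2 : Nat.gcd k i = Nat.gcd (if i = 8 then 3 else a i) i := h1.gcd_eq
    rw [Nat.Coprime, h2]
    rcases hT' i hi with h | h
    · rw [if_pos h, h]; norm_num
    · rw [if_neg (by rintro rfl; exact h8 h.1)]
      exact ha1 i h
  have hMne : NeZero M := ⟨hM0⟩
  obtain ⟨r, hrB, hr, hrk⟩ := Nat.forall_exists_prime_gt_and_eq_mod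
    (q := M) (a := (k : ZMod M)) ((ZMod.isUnit_iff_coprime k M).mpr hkM) (B + S.sup id)
  have hrk' : r ≡ k [MOD M] := (ZMod.natCast_eq_natCast_iff r k M).mp hrk
  have hri : ∀ i ∈ T, r ≡ (if i = 8 then 3 else a i) [MOD i] := fun i hi =>
    (hrk'.of_dvd (Finset.dvd_prod_of_mem (fun i => i) hi)).trans (hk i hi)
  have hrS : r ∉ S := by
    intro h
    have : r ≤ S.sup id := Finset.le_sup (f := id) h
    omega
  have hr8 : r % 8 = 3 := by
    have h1 := hri 8 (Finset.mem_insert_self _ _)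
    rw [if_pos rfl] at h1
    exact h1
  refine ⟨r, hr, by omega, hrS, hr8, fun q hq hpow => ?_⟩
  have hrF : Fact r.Prime := ⟨hr⟩
  have hqr : r ≠ q := fun h => hrS (h ▸ hq)
  have hq0 : (q : ZMod r) ≠ 0 := by
    intro h
    rw [ZMod.natCast_eq_zero_iff] at h
    exact hqr ((Nat.prime_dvd_prime_iff_eq hr (hS q hq)).mp h)
  have hr2 : (r - 1) / 2 = r / 2 := by omega
  rw [hr2, ← ZMod.euler_criterion r hq0] at hpow
  by_cases hq2 : q = 2
  · subst hq2
    have h1 : ¬ IsSquare (2 : ZMod r) := by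
      rw [ZMod.exists_sq_eq_two_iff (by omega)]
      omega
    exact h1 (by exact_mod_cast hpow)
  · have hqT : q ∈ T := by
      rw [hT, Finset.mem_insert, Finset.mem_filter]
      exact Or.inr ⟨hq, hq2⟩
    have h1 := hri q hqT
    rw [if_neg (by rintro rfl; exact h8 (hS 8 hq))] at h1
    exact ha2 q ⟨hS q hq, hq2⟩ r hr (by omega) hqr h1 hpow

end Fermat.Agent.P2.Hasse
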