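import Mathlib
import Fermat.Agent.CFT.Hasse.Abstract

/-!
# The Hasse principle for `H²(U, μ_p)`: abstract form, below a fixed subgroup
-/

set_option autoImplicit false
set_option linter.unusedSectionVars false

namespace Fermat.Agent.P2.Hasse

open Fermat.Agent.CFT.LC Fermat.Agent.CFT.D3 Fermat.Agent.CFT.PT Fermat.Agent.CFT.Hasse

section Main

variable {p : ℕ} [hp : Fact p.Prime] {G : Type*} [Group G] {L : Lvl G} {χc : G →* (ZMod p)ˣ}
  {A : Type*} [CommGroup A] [MulDistribMulAction G A] {ζ : A} (K : KData p L χc A ζ)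
  (h90 : ∀ (U : Subgroup G) (V : Subgroup U), H90 (L.restrict U) V A)
  {I : Type*} {Γ : I → Type*} [∀ i, Group (Γ i)] {B : I → Type*} [∀ i, CommGroup (B i)]
  [∀ i, MulDistribMulAction (Γ i) (B i)] (LΓ : ∀ i, Lvl (Γ i)) (r : ∀ i, Γ i →* G)
  (hr : ∀ i, (LΓ i).Cont L (r i)) (ι : ∀ i, A →* B i)
  (hι : ∀ i (γ : Γ i) (x : A), ι i (r i γ • x) = γ • ι i x)
  (h90B : ∀ i (U : Subgroup (Γ i)) (V : Subgroup U), H90 ((LΓ i).restrict U) V (B i))

include K h90 hr hι h90B in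
theorem induct_le {U0 : Subgroup G} (hasse : ∀ U : Subgroup G, L.IsOpen U → U ≤ χc.ker → U ≤ U0 →
      ∀ θ : U →* Multiplicative (ZMod p), (L.restrict U).IsOpen θ.ker → HasseNormAt p A r ι U θ)
    {N : Subgroup G} (hN : N ∈ L.levels) (k : ℕ) :
    ∀ U : Subgroup G, N ≤ U → U ≤ χc.ker → U ≤ U0 → N.relIndex U = p ^ k → ∀ z : G × G → ZMod p,
      CocOn L χc U z → LocTriv LΓ r χc U z → CobOn L χc N z → CobOn L χc U z := by
  have hNn := L.normal N hN
  induction k with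
  | zero =>
    intro U hNU hUχ hU0 hidx z hz hloc hNz
    rw [pow_zero, Subgroup.relIndex_eq_one] at hidx
    exact hNz.mono hidx
  | succ k ih =>
    intro U hNU hUχ hU0 hidx z hz hloc hNz
    obtain ⟨V, hNV, hVU, hVn, hVi, hk⟩ := exists_index_p N U hNU hidx
    have hVz := ih V hNV (hVU.trans hUχ) (hVU.trans hU0) hk z (hz.mono hVU) (hloc.mono hVU) hNz
    exact step_p K h90 LΓ r hr ι hι h90B ⟨N, hN, hNV⟩ hVU hVn hVi
      (hasse U ⟨N, hN, hNU⟩ hUχ hU0) hz hloc hVz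

end Main

section Final

variable {p : ℕ} [hp : Fact p.Prime] {G : Type} [Group G] {L : Lvl G} {χc : G →* (ZMod p)ˣ}
  {A : Type*} [CommGroup A] [MulDistribMulAction G A] {ζ : A} (K : KData p L χc A ζ)
  (h90 : ∀ (U : Subgroup G) (V : Subgroup U), H90 (L.restrict U) V A)
  {I : Type*} {Γ : I → Type*} [∀ i, Group (Γ i)] {B : I → Type*} [∀ i, CommGroup (B i)]
  [∀ i, MulDistribMulAction (Γ i) (B i)] (LΓ : ∀ i, Lvl (Γ i)) (r : ∀ i, Γ i →* G)
  (hr : ∀ i, (LΓ i).Cont L (r i)) (ι : ∀ i, A →* B i)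
  (hι : ∀ i (γ : Γ i) (x : A), ι i (r i γ • x) = γ • ι i x)
  (h90B : ∀ i (U : Subgroup (Γ i)) (V : Subgroup U), H90 ((LΓ i).restrict U) V (B i))

include K h90 hr hι h90B in
/-- **Abstract Hasse principle** for `H²(U, μ_p)`, the Hasse norm principle being only assumed
below `U`. -/
theorem hasse_abstract_le (hχc : L.IsOpen χc.ker) {U : Subgroup G} (hU : L.IsOpen U)
    (hasse : ∀ V : Subgroup G, L.IsOpen V → V ≤ χc.ker → V ≤ U →
      ∀ θ : V →* Multiplicative (ZMod p), (L.restrict V).IsOpen θ.ker → HasseNormAt p A r ι V θ)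
    {z : G × G → ZMod p}
    (hz : CocOn L χc U z) (hloc : LocTriv LΓ r χc U z) : CobOn L χc U z := by
  -- reduce to `U ≤ ker χc`
  have hU' : L.IsOpen (U ⊓ χc.ker) := hU.inf hχc
  have hcop : ¬ p ∣ (U ⊓ χc.ker).relIndex U := by
    rw [Subgroup.inf_relIndex_left, Subgroup.relIndex_ker]
    intro hdvd
    have h1 : Nat.card (U.map χc) ∣ Nat.card (ZMod p)ˣ := Subgroup.card_subgroup_dvd_card _
    have h2 := hdvd.trans h1
    rw [Nat.card_eq_fintype_card, ZMod.card_units] at h2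
    have := Nat.le_of_dvd (Nat.sub_pos_of_lt hp.out.one_lt) h2
    have := hp.out.pos
    omega
  refine cobOn_of_relIndex hU' inf_le_left hcop hz ?_
  have hz' := hz.mono (inf_le_left : U ⊓ χc.ker ≤ U)
  have hloc' := hloc.mono (inf_le_left : U ⊓ χc.ker ≤ U)
  generalize hU1 : U ⊓ χc.ker = U1 at *
  have hU1χ : U1 ≤ χc.ker := hU1 ▸ inf_le_right
  have hU1U : U1 ≤ U := hU1 ▸ inf_le_left
  -- choose a level
  obtain ⟨N0, hN0, hN0U⟩ := hU'
  obtain ⟨_, ⟨N1, hN1, rfl⟩, hlc⟩ := hz'.1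
  obtain ⟨N, hN, hNN0, hNN1⟩ := L.directed N0 hN0 N1 hN1
  have hNU : N ≤ U1 := hNN0.trans hN0U
  have hNn := L.normal N hN
  have hNfi := L.finiteIndex N hN
  -- trivial on `N`
  have hNz : CobOn L χc N z := by
    refine ⟨fun _ => z (1, 1), isLC₁_const _, fun g h => ?_⟩
    have h1 := hlc 1 1 ⟨g, hNU g.2⟩ (hNN1 g.2) ⟨h, hNU h.2⟩ (hNN1 h.2)
    simp only [one_mul] at h1
    have h2 : χc (g : G) = 1 := hU1χ (hNU g.2)
    rw [h2]
    simp only [Units.val_one, one_mul, sub_self, zero_add]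
    exact h1
  obtain ⟨P, hNP, hPU, ⟨k, hk⟩, hPi⟩ := exists_sylow_between (p := p) N U1 hNU
    (by
      have h1 := Subgroup.relIndex_mul_index hNU
      intro h0
      rw [h0, zero_mul] at h1
      exact hNfi.index_ne_zero h1.symm)
  have hPz := induct_le K h90 LΓ r hr ι hι h90B (U0 := U) hasse hN k P hNP (hPU.trans hU1χ)
    (hPU.trans hU1U) hk z (hz'.mono hPU) (hloc'.mono hPU) hNz
  exact cobOn_of_relIndex ⟨N, hN, hNP⟩ hPU hPi hz' hPz

end Final

end Fermat.Agent.P2.Hasse
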