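import Fermat.Agent.CFT.LD.Extra
import Fermat.Agent.CFT.Local.FormInst
import Fermat.Agent.CFT.Unram.Hom
import Fermat.Agent.LT.I8.Local2

/-!
# The absolute Galois group of `ℚ_q` satisfies the axioms `LD.Form`, all primes `p`
-/

set_option autoImplicit false
set_option linter.unusedSectionVars false

open Filter Topology

namespace Fermat.Agent.P2.Hasse

open Fermat.Agent.CFT.LC Fermat.Agent.CFT.LD Fermat.Agent.CFT.Unram ExtCitation
open Fermat.Agent.CFT.Local Fermat.Agent.CFT Module
open Fermat.Agent.CFT.PT (mu mu_apply mu_comp)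

section Form

variable (q : ℕ) [Fact q.Prime]

variable (p : ℕ) [hp : Fact p.Prime]

/-- The local Galois group of `ℚ_q` as a `p`-class formation. -/
noncomputable def formAll :
    LD.Form p (lvlOver (localGaloisToGlobal q)) (repUnits q)
      ((cycloChar p).comp (localGaloisToGlobal q)) (if p = q then 1 else 0) :=
  have : NeZero p := ⟨hp.out.ne_zero⟩
  let ζ₀ := (HasEnoughRootsOfUnity.exists_primitiveRoot (AlgebraicClosure ℚ) p).choose
  have hζ₀ : IsPrimitiveRoot ζ₀ p :=
    (HasEnoughRootsOfUnity.exists_primitiveRoot (AlgebraicClosure ℚ) p).choose_spec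
  let ζ : (AlgebraicClosure ℚ)ˣ := (hζ₀.isUnit hp.out.ne_zero).unit
  have hζ : IsPrimitiveRoot ζ p := hζ₀.isUnit_unit hp.out.ne_zero
  have K := Hasse.kdataLoc (p := p) q hζ
  { μ :=
      { j := 
          { toFun := fun c => Additive.ofMul (Hasse.zp (Hasse.locUnits q 1 ζ) c)
            map_zero' := by rw [Hasse.zp_zero]; rfl
            map_add' := fun a b => by rw [Hasse.zp_add K.pow]; rfl }
        comm := by
          intro g m
          change Additive.ofMul (Hasse.zp (Hasse.locUnits q 1 ζ) (PT.mu _ g m)) = _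
          rw [PT.mu_apply]
          change _ = repUnits q g (Additive.ofMul (Hasse.zp (Hasse.locUnits q 1 ζ) m))
          rw [repUnits_apply, ← smul_eq_autU, K.smul_zp]
        inj := by
          intro a b hab
          exact K.zp_injective (Additive.ofMul.injective hab)
        surj := by
          intro a ha
          obtain ⟨c, hc⟩ := K.tors a.toMul ha
          exact ⟨c, congrArg Additive.ofMul hc⟩ }
    smooth := by
      intro v
      obtain ⟨N, hN, h⟩ := K.sm v.toMul
      exact ⟨N, hN, fun s hs => congrArg Additive.ofMul (h s hs)⟩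
    smooth_mu := PT.smooth_mu (contChar_loc q p)
    div := by
      intro a
      obtain ⟨y, hy⟩ := K.div a.toMul
      exact ⟨Additive.ofMul y, congrArg Additive.ofMul hy⟩
    h90 := by
      intro U _ f hf
      obtain ⟨h1, h2⟩ := (mem_Z1 _ _).mp hf
      obtain ⟨y, hy⟩ := Hasse.h90_gal (k := ℚ_[q]) (Ω := PadicAlgCl q)
        (lvlOver (localGaloisToGlobal q)) (fun N hN => exists_field_le_of_mem_levels q hN) U
        (fun u => (f u).toMul) (fun v w => by
          have := congrArg Additive.toMul (h1 v w)
          rw [this, toMul_add, mul_comm]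
          rfl) (h2.comp Additive.toMul)
      exact ⟨Additive.ofMul y, fun u => congrArg Additive.ofMul (hy u)⟩
    card := by
      intro U hU hχ
      rw [relIndex_invs U U (nsmulAddMonoidHom p) (powMonoidHom p) (fun x _ => rfl),
        relIndex_map_pow, LT.I8.index_pow_fixU (isOpen_lvlOver_iff.mp hU) hp.out]
      · congr 2
        split_ifs <;> simp
      · intro z hz g hg
        have hz0 : z ≠ 0 := by
          rintro rfl
          rw [zero_pow hp.out.ne_zero] at hz
          exact zero_ne_one hz
        obtain ⟨c, hc⟩ := K.tors (Units.mk0 z hz0) (Units.ext hz)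
        have h3 := K.smul_zp g c
        have h4 : ((cycloChar p).comp (localGaloisToGlobal q)) g = 1 := hχ hg
        rw [h4, Units.val_one, one_mul, hc] at h3
        exact congrArg (fun y : (PadicAlgCl q)ˣ => (y : PadicAlgCl q)) h3
    norm := by
      intro U V hV hVU hn hidx s hsU hsV
      have hVo := isOpen_lvlOver_iff.mp hV
      have hfin : Finite (U ⧸ V.subgroupOf U) := by
        have h1 : (V.subgroupOf U).index ≠ 0 := by
          change V.relIndex U ≠ 0
          rw [hidx]; exact hp.out.ne_zero
        have h2 : (V.subgroupOf U).FiniteIndex := ⟨h1⟩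
        exact Subgroup.finite_quotient_of_finiteIndex
      have hft : Fintype (U ⧸ V.subgroupOf U) := Fintype.ofFinite _
      rw [relIndex_invs V U (nrm (repUnits q) p s) (normHom U V) (fun x hx => ?_),
        LT.I8.norm_index_group hVo hVU hn hp.out hidx]
      rw [nrm_apply]
      apply Additive.toMul.injective
      rw [toMul_sum]
      ext
      rw [Units.coe_prod, toMul_ofMul, normHom_eq_prod_pow hn hp.out hidx hsU hsV hx]
      rfl }

/-- the local cyclotomic character -/
noncomputable abbrev locChar : (PadicAlgCl q ≃ₐ[ℚ_[q]] PadicAlgCl q) →* (ZMod p)ˣ :=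
  (cycloChar p).comp (localGaloisToGlobal q)

theorem exists_H2_mu_ne :
    ∃ t : LC.H2 (mu (locChar q p)) (lvlOver (localGaloisToGlobal q)), t ≠ 0 := by
  obtain ⟨θ, hθ, -, -, hθo⟩ := exists_unr_hom_top q hp.out.ne_zero
  refine (formAll q p).exists_ne_of_hom hθo ?_
  rintro rfl
  obtain ⟨g, hg⟩ := hθ (Multiplicative.ofAdd 1)
  have h1 : (0 : ZMod p) = 1 := congrArg Multiplicative.toAdd hg
  exact zero_ne_one h1

theorem finrank_H2_mu_padic :
    finrank (ZMod p) (LC.H2 (mu (locChar q p)) (lvlOver (localGaloisToGlobal q))) = 1 :=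
  (formAll q p).finrank_H2_mu (exists_H2_mu_ne q p)

theorem exists_inv_padic :
    Nonempty (LC.H2 (mu (locChar q p)) (lvlOver (localGaloisToGlobal q)) ≃ₗ[ZMod p] ZMod p) :=
  (formAll q p).exists_inv (exists_H2_mu_ne q p)

end Form

section Primes

variable (q : Nat.Primes) (p : ℕ) [hp : Fact p.Prime]

theorem finrank_H2_mu_prime :
    finrank (ZMod p) (LC.H2 (mu ((cycloChar p).comp (primeLocalToGlobal q)))
      (lvlOver (primeLocalToGlobal q))) = 1 :=
  have : Fact (q : ℕ).Prime := ⟨q.2⟩
  finrank_H2_mu_padic (q : ℕ) p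

end Primes

end Fermat.Agent.P2.Hasse
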