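import Mathlib
import Fermat.Agent.CFT.Hasse.NormInput

/-!
# The Hasse norm principle over open subgroups of `G_ℚ`: a version with the Hasse norm theorem
as a hypothesis
-/

set_option autoImplicit false
set_option linter.unusedSectionVars false

open ExtCitation NumberField

namespace Fermat.Agent.P2.Hasse

open Fermat.Agent.CFT Fermat.Agent.CFT.Hasse
open Fermat.Agent.CFT.LC Fermat.Agent.CFT.D3 Fermat.Agent.CFT.PT Fermat.Agent.CFT.W
open Fermat.Agent.CFT.NormGrp Fermat.Agent.CFT.Embed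

/-- An algebraic closure of `ℚ`. -/
local notation "Qb" => AlgebraicClosure ℚ

local instance instFactPrimes2 (q : Nat.Primes) : Fact (q : ℕ).Prime := ⟨q.2⟩

/-- The statement of the Hasse norm theorem for Kummer extensions of degree `p` of `K`. -/
def HasseNormK (p : ℕ) (K : Type) [Field K] [NumberField K] : Prop :=
  ∀ {ζ : K}, IsPrimitiveRoot ζ p →
    ∀ {F : Type} [Field F] [NumberField F] [Algebra K F] {a : K} {α : F} {σ : F ≃ₐ[K] F},
    Kummer.Data K F p ζ a α σ → α ≠ 0 → ∀ x : Kˣ,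
    (∀ e : LocEmb K, e.toU x ∈ e.N p a) →
    ∃ y : Fˣ, Units.map (Algebra.norm K : F →* K) y = x

theorem hasseNormK_of_ne_two {p : ℕ} (hp : p.Prime) (hp2 : p ≠ 2) (K : Type) [Field K]
    [NumberField K] : HasseNormK p K :=
  fun hζ _ _ _ _ _ _ _ hD hα x hx => HasseNorm.hasse_norm hp hp2 hζ hD hα x hx

section

variable {p : ℕ} [hp : Fact p.Prime]

/-- **The Hasse norm principle**, for open subgroups of `G_ℚ`. -/
theorem hasseNormAt_of {ζ : Qbˣ} (hζ : IsPrimitiveRoot ζ p)
    {U : Subgroup (Qb ≃ₐ[ℚ] Qb)} (hU : (krull ℚ Qb).IsOpen U) (hUχ : U ≤ (cycloChar p).ker)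
    (HN : ∀ [NumberField (IntermediateField.fixedField U)],
      HasseNormK p (IntermediateField.fixedField U))
    (θ : U →* Multiplicative (ZMod p)) (hθ : ((krull ℚ Qb).restrict U).IsOpen θ.ker) :
    HasseNormAt p Qbˣ (fun i : Idx => locConj (i.1 : ℕ) i.2) (fun i : Idx => locUnits (i.1 : ℕ) i.2)
      U θ := by
  intro σ hσ x hx hloc
  have KQ := kdataQ (p := p) hζ
  have hζU : ∀ u : U, (u : Qb ≃ₐ[ℚ] Qb) • ζ = ζ := by
    intro u
    rw [cyclo_act hζ]
    have h1 : cycloChar p (u : Qb ≃ₐ[ℚ] Qb) = 1 := hUχ u.2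
    rw [h1, Units.val_one, ZMod.val_one_eq_one_mod, Nat.mod_eq_of_lt hp.out.one_lt, pow_one]
  -- the Kummer generator
  set f : U → Qbˣ := fun u => zp ζ (Multiplicative.toAdd (θ u)) with hf
  obtain ⟨β, hβ⟩ : ∃ β : Qbˣ, ∀ u : U, f u = (u : Qb ≃ₐ[ℚ] Qb) • β / β := by
    obtain ⟨β, hβ⟩ := h90Q U ⊤ (fun u => f u) (by
      intro v w
      have h1 : ((v : U) : Qb ≃ₐ[ℚ] Qb) • f w = f w := by
        show ((v : U) : Qb ≃ₐ[ℚ] Qb) • ζ ^ _ = ζ ^ _
        rw [smul_pow', hζU]
      show f (v * w : U) = f v * ((v : U) : Qb ≃ₐ[ℚ] Qb) • f w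
      rw [h1]
      show zp ζ _ = _
      rw [map_mul, toAdd_mul, zp_add KQ.pow]) (by
      obtain ⟨N, hN, hle⟩ := hθ
      refine ⟨_, ⟨N, hN, rfl⟩, fun g s hs => ?_⟩
      show f (g * s : U) = f g
      have h1 : θ (s : U) = 1 := hle hs
      show zp ζ _ = zp ζ _
      rw [map_mul, h1, mul_one])
    exact ⟨β, fun u => hβ ⟨u, trivial⟩⟩
  have hfix : ∀ u : U, (u : Qb ≃ₐ[ℚ] Qb) • β = β ↔ θ u = 1 := by
    intro u
    have h1 := hβ u
    constructor
    · intro h
      rw [h, div_self'] at h1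
      have h2 := KQ.inj _ h1
      exact h2
    · intro h
      have h2 : f u = 1 := by
        show zp ζ _ = 1
        rw [h]
        exact zp_zero
      rw [h2, eq_comm, div_eq_one] at h1
      exact h1
  -- the fixed field
  set K : IntermediateField ℚ Qb := IntermediateField.fixedField U with hK
  have hKfix : K.fixingSubgroup = U := fixingSubgroup_fixedField_of_isOpen hU
  have hKfin : FiniteDimensional ℚ K := isFin_fixedField hU
  have hmemK : ∀ y : Qb, (∀ u : U, (u : Qb ≃ₐ[ℚ] Qb) y = y) → y ∈ K := fun y hy => hy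
  have hζK : (ζ : Qb) ∈ K := hmemK _ fun u => congrArg Units.val (hζU u)
  set ζ' : K := ⟨ζ, hζK⟩ with hζ'
  have hζ'p : IsPrimitiveRoot ζ' p := by
    have h1 : IsPrimitiveRoot (ζ : Qb) p := hζ.map_of_injective (f := Units.coeHom Qb)
      Units.val_injective
    exact IsPrimitiveRoot.of_map_of_injective (f := algebraMap K Qb) h1
      (algebraMap K Qb).injective
  have hbK : (β : Qb) ^ p ∈ K := by
    refine hmemK _ fun u => ?_
    have h1 : (u : Qb ≃ₐ[ℚ] Qb) • β ^ p = β ^ p := by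
      have h2 : ((u : Qb ≃ₐ[ℚ] Qb) • β / β) ^ p = 1 := by
        rw [← hβ u]
        exact zp_pow KQ.pow _
      rw [div_pow, div_eq_one] at h2
      rw [smul_pow', h2]
    have h3 := congrArg Units.val h1
    rw [Units.val_pow_eq_pow_val] at h3
    exact h3
  set bK : K := ⟨(β : Qb) ^ p, hbK⟩ with hbKdef
  have hxK : ((x : Qbˣ) : Qb) ∈ K := hmemK _ fun u => congrArg Units.val (hx u)
  have hx0 : (⟨x, hxK⟩ : K) ≠ 0 := fun h => x.ne_zero (congrArg Subtype.val h)
  set xK : Kˣ := Units.mk0 ⟨x, hxK⟩ hx0 with hxKdef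
  have hσK : (σ : Qb ≃ₐ[ℚ] Qb) ∈ K.fixingSubgroup := by rw [hKfix]; exact σ.2
  have hθ1 : (1 : Multiplicative (ZMod p)) ≠ Multiplicative.ofAdd 1 := by
    intro h
    have h1 : (0 : ZMod p) = 1 := congrArg Multiplicative.toAdd h
    exact zero_ne_one h1
  have hσβ : (σ : Qb ≃ₐ[ℚ] Qb) (β : Qb) ≠ β := by
    intro h
    have h1 : θ σ = 1 := (hfix σ).mp (Units.ext h)
    exact hθ1 (h1.symm.trans hσ)
  have hgal : IsGalois ℚ Qb := inferInstance
  -- reduce to `normGrp`
  have hmain : xK ∈ normGrp K p bK := by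
    obtain ⟨ha, ζ'', σ', hζ'', hD, -⟩ := NormGal.exists_data K hp.out hζ'p (a := bK) (α := (β : Qb))
      rfl hσK hσβ
    rw [normGrp_eq_range hp.out ha hD.finrank_eq hD.pow_eq]
    have hfd : FiniteDimensional K (IntermediateField.adjoin K {(β : Qb)}) :=
      IntermediateField.adjoin.finiteDimensional
        (Algebra.IsIntegral.isIntegral (R := ℚ) (β : Qb)).tower_top
    have hNF : NumberField (IntermediateField.adjoin K {(β : Qb)}) :=
      { to_charZero := algebraRat.charZero _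
        to_finiteDimensional := Module.Finite.trans (R := ℚ) K _ }
    have hgen0 : IntermediateField.AdjoinSimple.gen K (β : Qb) ≠ 0 := fun h =>
      β.ne_zero (congrArg Subtype.val h)
    refine HN hζ'' hD hgen0 xK fun e => ?_
    -- the local conditions
    obtain ⟨q, φ⟩ := e
    rename_i hq
    obtain ⟨g, rfl⟩ := exists_emb q K φ
    set qq : Nat.Primes := ⟨q, hq.out⟩ with hqq
    set L : IntermediateField ℚ_[q] (PadicAlgCl q) := locF q (emb q K g) with hL
    have hmemL : ∀ τ : PadicAlgCl q ≃ₐ[ℚ_[q]] PadicAlgCl q,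
        τ ∈ L.fixingSubgroup ↔ locConj q g τ ∈ U := by
      intro τ
      have h1 := mem_fixingSubgroup_localField q K g τ
      rw [hKfix, ← locConj_apply] at h1
      exact h1
    set α : PadicAlgCl q := padicEmbedding q (g (β : Qb)) with hα
    have hαp : α ^ p = ((Embed.toLocF q (emb q K g) bK : L) : PadicAlgCl q) := by
      rw [Embed.coe_toLocF, hα, ← map_pow, ← map_pow]
      rfl
    have hact : ∀ (τ : PadicAlgCl q ≃ₐ[ℚ_[q]] PadicAlgCl q) (hτ : locConj q g τ ∈ U),
        τ α = α ↔ θ ⟨locConj q g τ, hτ⟩ = 1 := by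
      intro τ hτ
      rw [← hfix]
      have h1 := locUnits_smul q g τ β
      have h2 : τ α = padicEmbedding q (g ((locConj q g τ • β : Qbˣ) : Qb)) :=
        (congrArg Units.val h1).symm
      rw [h2, hα]
      constructor
      · intro h
        exact Units.ext (g.injective ((padicEmbedding q).injective h))
      · intro h
        show padicEmbedding q (g ((locConj q g τ • β : Qbˣ) : Qb)) = _
        have h3 : locConj q g τ • β = β := h
        rw [h3]
    show Units.map (Embed.toLocF q (emb q K g) : K →* L) xK ∈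
      normGrp L p (Embed.toLocF q (emb q K g) bK)
    by_cases hall : ∀ τ ∈ L.fixingSubgroup, τ α = α
    · rw [NormGal.normGrp_eq_top_of_fixed L hαp hall]
      exact Subgroup.mem_top _
    · push Not at hall
      obtain ⟨τ0, hτ0, hτ0α⟩ := hall
      have hτ0U := (hmemL τ0).mp hτ0
      have hθ0 : θ ⟨_, hτ0U⟩ ≠ 1 := fun h => hτ0α ((hact τ0 hτ0U).mpr h)
      -- a suitable power
      obtain ⟨k, hk⟩ : ∃ k : ℕ, θ ⟨_, hτ0U⟩ ^ k = Multiplicative.ofAdd 1 := by
        set c : ZMod p := Multiplicative.toAdd (θ ⟨_, hτ0U⟩) with hc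
        have hc0 : c ≠ 0 := fun h => hθ0 h
        refine ⟨(c⁻¹).val, ?_⟩
        have : NeZero p := ⟨hp.out.ne_zero⟩
        have h1 : θ ⟨_, hτ0U⟩ = Multiplicative.ofAdd c := rfl
        rw [h1, ← ofAdd_nsmul, nsmul_eq_mul, ZMod.natCast_zmod_val, inv_mul_cancel₀ hc0]
      set s := τ0 ^ k with hs
      have hsL : s ∈ L.fixingSubgroup := pow_mem hτ0 k
      have hsU : locConj q g s ∈ U := (hmemL s).mp hsL
      have hθs : θ ⟨_, hsU⟩ = Multiplicative.ofAdd 1 := by
        rw [← hk, ← map_pow]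
        congr 1
        apply Subtype.ext
        show locConj q g (τ0 ^ k) = locConj q g τ0 ^ k
        rw [map_pow]
      have hsα : s α ≠ α := by
        intro h
        have h1 := (hact s hsU).mp h
        exact hθ1 (h1.symm.trans hθs)
      obtain ⟨b, hb1, hb2⟩ := hloc (qq, g) s hsU hθs
      have hζL : IsPrimitiveRoot (Embed.toLocF q (emb q K g) ζ') p :=
        hζ'p.map_of_injective (Embed.toLocF q (emb q K g)).injective
      rw [NormGal.mem_normGrp_iff L hp.out hζL hαp hsL hsα]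
      refine ⟨b, fun v hv hvα => ?_, ?_⟩
      · have hvU := (hmemL v).mp hv
        exact congrArg Units.val (hb1 v hvU ((hact v hvU).mp hvα))
      · have h1 := congrArg Units.val hb2
        rw [Units.coe_prod] at h1
        exact h1
  rw [NormGal.mem_normGrp_iff K hp.out hζ'p (α := (β : Qb)) rfl hσK hσβ] at hmain
  obtain ⟨b, hb1, hb2⟩ := hmain
  refine ⟨b, fun v hv => Units.ext ?_, Units.ext ?_⟩
  · refine hb1 v ?_ ?_
    · rw [hKfix]
      exact v.2
    · exact congrArg Units.val ((hfix v).mpr hv)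
  · rw [Units.coe_prod]
    exact hb2

end

end Fermat.Agent.P2.Hasse
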