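import Mathlib
import Fermat.Agent.P2.Hasse.NormInput
import Fermat.Prelude.Def_GaloisRep_ComplexConjugation

/-!
# Complex conjugation and totally complex fixed fields
-/

set_option autoImplicit false
set_option linter.unusedSectionVars false

open NumberField

namespace Fermat.Agent.P2.Hasse

open Fermat.Agent.CFT.LC Fermat.Agent.CFT.D3 Fermat.Agent.CFT.PT Fermat.Agent.CFT.Hasse

/-- An algebraic closure of `ℚ`. -/
local notation "Qb" => AlgebraicClosure ℚ

/-- Every embedding `ℚ̄ → ℂ` is `complexEmbedding ∘ g`. -/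
theorem exists_eq_complexEmbedding_comp (ψ : Qb →+* ℂ) :
    ∃ g : Qb ≃ₐ[ℚ] Qb, ∀ x, ψ x = complexEmbedding (g x) := by
  let ψ' : Qb →ₐ[ℚ] ℂ := ψ.toRatAlgHom
  let : Algebra Qb ℂ := complexEmbedding.toRingHom.toAlgebra
  have : IsScalarTower ℚ Qb ℂ := IsScalarTower.of_algebraMap_eq' (Subsingleton.elim _ _)
  let g : Qb →ₐ[ℚ] Qb := ψ'.restrictNormal Qb
  have hg : Function.Bijective g := Algebra.IsAlgebraic.algHom_bijective g
  refine ⟨AlgEquiv.ofBijective g hg, fun x => ?_⟩
  exact (AlgHom.restrictNormal_commutes ψ' Qb x).symm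

/-- Every embedding `L → ℂ` is `complexEmbedding ∘ g`. -/
theorem exists_global_complex (L : IntermediateField ℚ Qb) (φ : L →+* ℂ) :
    ∃ g : Qb ≃ₐ[ℚ] Qb, ∀ x : L, φ x = complexEmbedding (g x) := by
  let : Algebra L ℂ := φ.toAlgebra
  have : Algebra.IsAlgebraic L Qb := Algebra.IsAlgebraic.tower_top (K := ℚ) L
  let ψ : Qb →ₐ[L] ℂ := IsAlgClosed.lift
  obtain ⟨g, hg⟩ := exists_eq_complexEmbedding_comp (ψ : Qb →+* ℂ)
  refine ⟨g, fun x => ?_⟩
  rw [← hg]
  exact (ψ.commutes x).symm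

/-- `L` is totally complex if its absolute Galois group contains no conjugate of complex
conjugation. -/
theorem isTotallyComplex_of (L : IntermediateField ℚ Qb)
    (h : ∀ g : Qb ≃ₐ[ℚ] Qb, g⁻¹ * complexConjugation * g ∉ L.fixingSubgroup) :
    IsTotallyComplex L := by
  refine ⟨fun v => ?_⟩
  rw [← InfinitePlace.not_isReal_iff_isComplex]
  rintro ⟨φ, hφ, -⟩
  obtain ⟨g, hg⟩ := exists_global_complex L φ
  refine h g ?_
  rw [IntermediateField.mem_fixingSubgroup_iff]
  intro x hx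
  have h1 : starRingEnd ℂ (φ ⟨x, hx⟩) = φ ⟨x, hx⟩ := DFunLike.congr_fun hφ ⟨x, hx⟩
  rw [hg, ← complexEmbedding_complexConjugation] at h1
  have h2 := complexEmbedding.injective h1
  show g⁻¹ (complexConjugation (g x)) = x
  have h3 : complexConjugation (g x) = g x := h2
  rw [h3]
  exact g.symm_apply_apply x

theorem isTotallyComplex_fixedField {U : Subgroup (Qb ≃ₐ[ℚ] Qb)}
    (hU : (krull ℚ Qb).IsOpen U)
    (h : ∀ g : Qb ≃ₐ[ℚ] Qb, g⁻¹ * complexConjugation * g ∉ U) :
    IsTotallyComplex (IntermediateField.fixedField U) := by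
  refine isTotallyComplex_of _ fun g => ?_
  rw [fixingSubgroup_fixedField_of_isOpen hU]
  exact h g

end Fermat.Agent.P2.Hasse
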