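import Mathlib
import Fermat.Agent.P2.Hasse.Abstract
import Fermat.Agent.P2.Hasse.Tot
import Fermat.Agent.P2.Hasse.Form
import Fermat.Agent.CFT.Hasse.Principle
import Fermat.Agent.CFT.Hasse.LocFun

/-!
# The Hasse principle for `H²(U, μ_p)` and local functionals, all primes `p`
-/

set_option autoImplicit false
set_option linter.unusedSectionVars false

open ExtCitation NumberField

namespace Fermat.Agent.P2.Hasse

open Fermat.Agent.CFT Fermat.Agent.CFT.Hasse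
open Fermat.Agent.CFT.LC Fermat.Agent.CFT.D3 Fermat.Agent.CFT.PT Fermat.Agent.CFT.W
open Fermat.Agent.CFT.Unram

/-- An algebraic closure of `ℚ`. -/
local notation "Qb" => AlgebraicClosure ℚ

local instance instFactPrimes3 (q : Nat.Primes) : Fact (q : ℕ).Prime := ⟨q.2⟩

/-- The Hasse norm theorem in degree `p` for all fixed fields of open subgroups of `U`. -/
def HN (p : ℕ) (U : Subgroup (Qb ≃ₐ[ℚ] Qb)) : Prop :=
  ∀ V : Subgroup (Qb ≃ₐ[ℚ] Qb), (krull ℚ Qb).IsOpen V → V ≤ U →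
    ∀ [NumberField (IntermediateField.fixedField V)], HasseNormK p (IntermediateField.fixedField V)

theorem HN.mono {p : ℕ} {U V : Subgroup (Qb ≃ₐ[ℚ] Qb)} (h : HN p U) (hVU : V ≤ U) : HN p V :=
  fun W hW hWV => h W hW (hWV.trans hVU)

theorem HN.of_ne_two {p : ℕ} (hp : p.Prime) (hp2 : p ≠ 2) (U : Subgroup (Qb ≃ₐ[ℚ] Qb)) : HN p U :=
  fun V _ _ _ => hasseNormK_of_ne_two hp hp2 (IntermediateField.fixedField V)

section

variable {p : ℕ} [hp : Fact p.Prime]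

/-- **The Hasse principle** for 2-cocycles of open subgroups of `G_ℚ` with values in `μ_p`. -/
theorem hasse_le {U : Subgroup (Qb ≃ₐ[ℚ] Qb)} (hU : (krull ℚ Qb).IsOpen U) (hHN : HN p U)
    {z : (Qb ≃ₐ[ℚ] Qb) × (Qb ≃ₐ[ℚ] Qb) → ZMod p} (hz : CocOn (krull ℚ Qb) (cycloChar p) U z)
    (hloc : LocTriv (fun i : Idx => lvlOver (localGaloisToGlobal (i.1 : ℕ)))
      (fun i : Idx => locConj (i.1 : ℕ) i.2) (cycloChar p) U z) :
    CobOn (krull ℚ Qb) (cycloChar p) U z := by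
  obtain ⟨ζ, hζ⟩ := exists_primitiveRoot_units (p := p)
  exact hasse_abstract_le (I := Idx)
    (Γ := fun i : Idx => PadicAlgCl (i.1 : ℕ) ≃ₐ[ℚ_[(i.1 : ℕ)]] PadicAlgCl (i.1 : ℕ))
    (B := fun i : Idx => (PadicAlgCl (i.1 : ℕ))ˣ) (kdataQ hζ) h90Q
    (fun i : Idx => lvlOver (localGaloisToGlobal (i.1 : ℕ)))
    (fun i : Idx => locConj (i.1 : ℕ) i.2) (fun i => cont_locConj (i.1 : ℕ) i.2)
    (fun i : Idx => locUnits (i.1 : ℕ) i.2) (fun i γ x => locUnits_smul (i.1 : ℕ) i.2 γ x)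
    (fun i U V => h90Loc (i.1 : ℕ) U V) isOpen_krull_ker_cycloChar hU
    (fun V hV hVχ hVU θ hθ => hasseNormAt_of hζ hV hVχ (hHN V hV hVU) θ hθ) hz hloc

end

section

variable {p r : ℕ} [hp : Fact p.Prime] [hr : Fact r.Prime] {q : ℕ} [hq : Fact q.Prime]
  (Λ : (ZMod r)ˣ →* Multiplicative (ZMod p))

/-- Every class of `H²(G_q, μ_p)` is cyclic for the character `thF`. -/
theorem exists_cycRel (h : thF q Λ ≠ 1) {ζ : Qbˣ} (hζ : IsPrimitiveRoot ζ p)
    {z : (PadicAlgCl q ≃ₐ[ℚ_[q]] PadicAlgCl q) × (PadicAlgCl q ≃ₐ[ℚ_[q]] PadicAlgCl q) → ZMod p}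
    (hz : z ∈ Z2 (mu ((cycloChar p).comp (localGaloisToGlobal q)))
      (lvlOver (localGaloisToGlobal q))) :
    ∃ (a : ℚ_[q]) (ha : a ≠ 0), CycRel (lvlOver (localGaloisToGlobal q)) (thF q Λ)
      (locUnits q 1 ζ) z (uq ha) := by
  have K := kdataLoc (p := p) q hζ
  obtain ⟨s, hs⟩ := exists_thF_eq_one_of_ne q Λ h
  have hz' := (mem_Z2 _ _).mp hz
  have hres := (formAll q p).res_ker_eq_zero (isOpen_ker_thF q Λ) h (H2.mk (mu ((cycloChar p).comp
    (localGaloisToGlobal q))) (lvlOver (localGaloisToGlobal q)) ⟨z, hz⟩)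
  rw [Mor.H2_mk, H2.mk_eq_zero_iff] at hres
  obtain ⟨w, hwl, hw⟩ := hres
  obtain ⟨x, hx, f, hf, hfe⟩ := exists_eq_cyc_mul_mdiff K.sm (isOpen_ker_thF q Λ) hs (h90Loc' q _)
    (z := fun x => zp (locUnits q 1 ζ) (z x))
    (K.isCoc_zp fun g h j => by
      have h1 := hz'.1 g h j
      rw [mu_apply] at h1
      exact h1) (hz'.2.comp (zp (locUnits q 1 ζ)))
    (w := fun v => zp (locUnits q 1 ζ) (w v)) (hwl.comp (zp (locUnits q 1 ζ))) (fun v v' => by
      have h1 := congrFun hw (v, v')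
      rw [d1_apply] at h1
      have h2 : z ((v : PadicAlgCl q ≃ₐ[ℚ_[q]] PadicAlgCl q), (v' : PadicAlgCl q ≃ₐ[ℚ_[q]] PadicAlgCl q)) =
          (((cycloChar p).comp (localGaloisToGlobal q)) (v : PadicAlgCl q ≃ₐ[ℚ_[q]] PadicAlgCl q) : ZMod p) *
            w v' - w (v * v') + w v := h1.symm.trans (by
          congr 2)
      show zp (locUnits q 1 ζ) (z (_, _)) = _
      rw [h2, zp_add K.pow, zp_sub K.pow, ← K.smul_zp, div_mul_eq_mul_div])
  obtain ⟨a, ha, rfl⟩ := exists_uq hx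
  exact ⟨a, ha, f, hf, fun x => congrFun hfe x⟩

/-- **The local functional** -/
theorem exists_lambda (hqr : q ≠ r) (h : thF q Λ ≠ 1) {ζ : Qbˣ}
    (hζ : IsPrimitiveRoot ζ p) :
    ∃ l : LC.H2 (mu ((cycloChar p).comp (localGaloisToGlobal q)))
        (lvlOver (localGaloisToGlobal q)) →ₗ[ZMod p] ZMod p, l ≠ 0 ∧
      ∀ (z : Z2 (mu ((cycloChar p).comp (localGaloisToGlobal q)))
        (lvlOver (localGaloisToGlobal q))) (a : ℚ_[q]) (ha : a ≠ 0),
        CycRel (lvlOver (localGaloisToGlobal q)) (thF q Λ) (locUnits q 1 ζ) z.1 (uq ha) →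
          l (H2.mk (mu ((cycloChar p).comp (localGaloisToGlobal q)))
            (lvlOver (localGaloisToGlobal q)) z) = (a.valuation : ZMod p) := by
  have K := kdataLoc (p := p) q hζ
  obtain ⟨l, hl⟩ := exists_functional
    (ρ := mu ((cycloChar p).comp (localGaloisToGlobal q))) (L := lvlOver (localGaloisToGlobal q))
    (fun z c => ∃ (a : ℚ_[q]) (ha : a ≠ 0), CycRel (lvlOver (localGaloisToGlobal q)) (thF q Λ)
      (locUnits q 1 ζ) z (uq ha) ∧ c = (a.valuation : ZMod p))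
    (fun z hz => by
      obtain ⟨a, ha, h1⟩ := exists_cycRel Λ h hζ hz
      exact ⟨_, a, ha, h1, rfl⟩)
    (by
      rintro z _ _ ⟨a, ha, h1, rfl⟩ ⟨b, hb, h2, rfl⟩
      exact valuation_eq Λ hqr h hζ ha hb h1 h2)
    (by
      rintro z z' _ _ ⟨a, ha, h1, rfl⟩ ⟨b, hb, h2, rfl⟩
      refine ⟨a * b, mul_ne_zero ha hb, ?_, ?_⟩
      · rw [← uq_mul ha hb]
        exact h1.add K.pow h2
      · rw [Padic.valuation_mul ha hb]
        push_cast
        rfl)
    (fun z hz => by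
      obtain ⟨w, hw, h1⟩ := (mem_B2 _ _).mp hz
      refine ⟨1, one_ne_zero, ?_, ?_⟩
      · rw [uq_one]
        refine CycRel.of_cob K hw fun g h => ?_
        have h2 := congrFun h1 (g, h)
        rw [d1_apply, mu_apply] at h2
        exact h2.symm
      · rw [Padic.valuation_one]
        simp)
  refine ⟨l, ?_, fun z a ha h1 => hl z _ ⟨a, ha, h1, rfl⟩⟩
  intro hl0
  have hqq : (q : ℚ_[q]) ≠ 0 := by exact_mod_cast hq.out.ne_zero
  obtain ⟨z, hzl, hz, f, hf, hfe⟩ := K.exists_z2_cyc (isOpen_ker_thF q Λ) (a := uq hqq)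
    (fun g => smul_uq hqq g)
  have hz2 : z ∈ Z2 (mu ((cycloChar p).comp (localGaloisToGlobal q)))
      (lvlOver (localGaloisToGlobal q)) := by
    rw [mem_Z2]
    refine ⟨fun g h j => ?_, hzl⟩
    rw [mu_apply]
    exact hz g h j
  have h1 := hl ⟨z, hz2⟩ _ ⟨q, hqq, ⟨f, hf, hfe⟩, rfl⟩
  rw [hl0, LinearMap.zero_apply, Padic.valuation_p] at h1
  simp at h1

end

end Fermat.Agent.P2.Hasse
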