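import Mathlib
import Fermat.Agent.P2.Hasse.Principle
import Fermat.Agent.P2.Hasse.AuxPrime
import Fermat.Agent.CFT.Hasse.Recip

/-!
# The sum formula for `H²(G_{ℚ,S}, μ_2)`
-/

set_option autoImplicit false
set_option linter.unusedSectionVars false

open ExtCitation NumberField

namespace Fermat.Agent.P2.Hasse

open Fermat.Agent.CFT Fermat.Agent.CFT.Hasse
open Fermat.Agent.CFT.LC Fermat.Agent.CFT.D3 Fermat.Agent.CFT.PT Fermat.Agent.CFT.W
open IntermediateField

/-- An algebraic closure of `ℚ`. -/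
local notation "Qb" => AlgebraicClosure ℚ

local instance instFactPrimes4 (q : Nat.Primes) : Fact (q : ℕ).Prime := ⟨q.2⟩

section

variable {p r : ℕ} [hp : Fact p.Prime] [hr : Fact r.Prime]
  (Λ : (ZMod r)ˣ →* Multiplicative (ZMod p))

/-- local triviality at the primes where `thF` is nontrivial -/
theorem cobOn_of_thF {q : ℕ} [hq : Fact q.Prime] (h : thF q Λ ≠ 1)
    {z : (Qb ≃ₐ[ℚ] Qb) × (Qb ≃ₐ[ℚ] Qb) → ZMod p}
    (hz : ∀ g h j, z (g * h, j) + z (g, h) = (cycloChar p g : ZMod p) * z (h, j) + z (g, h * j))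
    (hzl : IsLC₂ (krull ℚ Qb) z) (g : Qb ≃ₐ[ℚ] Qb) :
    CobOn (lvlOver (localGaloisToGlobal q)) ((cycloChar p).comp (locConj q g))
      ((chiF Λ).ker.comap (locConj q g)) (fun x => z (locConj q g x.1, locConj q g x.2)) := by
  rw [comap_locConj_ker_chiF, cycloChar_locConj]
  have hz2 : (fun x : (PadicAlgCl q ≃ₐ[ℚ_[q]] PadicAlgCl q) × (PadicAlgCl q ≃ₐ[ℚ_[q]] PadicAlgCl q)
      => z (locConj q g x.1, locConj q g x.2)) ∈
      Z2 (mu ((cycloChar p).comp (localGaloisToGlobal q))) (lvlOver (localGaloisToGlobal q)) := by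
    rw [mem_Z2]
    refine ⟨fun a b c => ?_, hzl.pullback (cont_locConj q g)⟩
    rw [mu_apply, ← cycloChar_locConj q g]
    show z (locConj q g (a * b), locConj q g c) + z (locConj q g a, locConj q g b) =
      (cycloChar p (locConj q g a) : ZMod p) * z (locConj q g b, locConj q g c) +
        z (locConj q g a, locConj q g (b * c))
    rw [map_mul, map_mul]
    exact hz _ _ _
  have hres := (formAll q p).res_ker_eq_zero (isOpen_ker_thF q Λ) h
    (H2.mk (mu ((cycloChar p).comp (localGaloisToGlobal q))) (lvlOver (localGaloisToGlobal q))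
      ⟨_, hz2⟩)
  rw [Mor.H2_mk, H2.mk_eq_zero_iff] at hres
  obtain ⟨w, hwl, hw⟩ := hres
  refine ⟨w, hwl, fun a b => ?_⟩
  have h1 := congrFun hw (a, b)
  rw [d1_apply] at h1
  exact h1.symm

/-- The class of `z` is cyclic for the character `chiF`. -/
theorem exists_cycRel_global (hHN : HN p (chiF Λ).ker) (hΛ : Function.Surjective Λ)
    {S : Finset Nat.Primes}
    (hpS : ∃ v ∈ S, (v : ℕ) = p) (hS : ∀ q ∈ S, thF (q : ℕ) Λ ≠ 1) {ζ : Qbˣ}
    (hζ : IsPrimitiveRoot ζ p)
    {z : (Qb ≃ₐ[ℚ] Qb) × (Qb ≃ₐ[ℚ] Qb) → ZMod p}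
    (hz : ∀ g h j, z (g * h, j) + z (g, h) = (cycloChar p g : ZMod p) * z (h, j) + z (g, h * j))
    (hzl : IsLC₂ (unram S) z) :
    ∃ x : Qbˣ, (∀ g : Qb ≃ₐ[ℚ] Qb, g • x = x) ∧ CycRel (krull ℚ Qb) (chiF Λ) ζ z x := by
  have K := kdataQ (p := p) hζ
  have hzl' : IsLC₂ (krull ℚ Qb) z := hzl.pullback (cont_krull_unram S)
  have hcob : CobOn (krull ℚ Qb) (cycloChar p) (chiF Λ).ker z := by
    refine hasse_le (isOpen_ker_chiF Λ) hHN ⟨?_, fun g _ k _ j _ => hz g k j⟩ ?_
    · exact hzl'.pullback ((krull ℚ Qb).cont_comap (chiF Λ).ker.subtype)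
    · rintro ⟨q, g⟩
      by_cases hq : q ∈ S
      · exact cobOn_of_thF Λ (hS q hq) hz hzl' g
      · obtain ⟨w, hw1, hw2⟩ := exists_cob_outside hq hpS hz hzl g
        exact ⟨fun x => w x, isLC₁_restrict hw1 _, fun a b => hw2 a b⟩
  obtain ⟨w, hwl, hw⟩ := hcob
  obtain ⟨s, hs⟩ := exists_thF_r Λ hΛ
  obtain ⟨x, hx, f, hf, hfe⟩ := exists_eq_cyc_mul_mdiff K.sm (isOpen_ker_chiF Λ)
    (σ := localGaloisToGlobal r s) hs (h90Q' _) (z := fun x => zp ζ (z x))
    (K.isCoc_zp hz) (hzl'.comp (zp ζ)) (w := fun v => zp ζ (w v)) (hwl.comp (zp ζ))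
    (fun v v' => by
      show zp ζ (z (_, _)) = _
      rw [hw v v', zp_add K.pow, zp_sub K.pow, ← K.smul_zp, div_mul_eq_mul_div])
  exact ⟨x, hx, f, hf, fun y => congrFun hfe y⟩

/-- the functional at a prime `v ≠ r` -/
theorem exists_lambda_prime (S : Finset Nat.Primes) (v : ↥S) (hvr : (v.1 : ℕ) ≠ r)
    (hth : thF (v.1 : ℕ) Λ ≠ 1) {ζ : Qbˣ} (hζ : IsPrimitiveRoot ζ p) :
    ∃ l : LC.H2 (mu ((cycloChar p).comp (primeLocalToGlobal v.1)))
        (lvlOver (primeLocalToGlobal v.1)) →ₗ[ZMod p] ZMod p, l ≠ 0 ∧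
      ∀ (z : Z2 (mu (cycloChar p)) (unram S)) (n : ℕ) (hn : n ≠ 0),
        CycRel (krull ℚ Qb) (chiF Λ) ζ z.1 (uN hn) →
          l ((resMu (cycloChar p) (primeLocalToGlobal v.1) (cont_locS S v)).H2
            (H2.mk (mu (cycloChar p)) (unram S) z)) = (n.factorization (v.1 : ℕ) : ZMod p) := by
  obtain ⟨l, hl0, hl⟩ := exists_lambda (q := (v.1 : ℕ)) Λ hvr hth hζ
  refine ⟨l, hl0, fun z n hn h => ?_⟩
  have h1 := hl ((resMu (cycloChar p) (primeLocalToGlobal v.1) (cont_locS S v)).z2 z)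
    (n : ℚ_[(v.1 : ℕ)]) (by exact_mod_cast hn) (by
      have h2 := cycRel_loc Λ (v.1 : ℕ) hn h
      have h3 : ∀ τ, locConj (v.1 : ℕ) 1 τ = localGaloisToGlobal (v.1 : ℕ) τ := fun τ => by
        rw [locConj_apply, inv_one, one_mul, mul_one]
      simp only [h3] at h2
      exact h2)
  rw [valuation_natCast', Int.cast_natCast] at h1
  exact h1

end

section Two

variable {r : ℕ} [hr : Fact r.Prime] (Λ : (ZMod r)ˣ →* Multiplicative (ZMod 2))

/-- complex conjugation acts on the roots of unity by inversion -/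
theorem cycr_complexConjugation : (cycr r complexConjugation : ZMod r) = -1 := by
  obtain ⟨ζ, hζ⟩ := exists_zeta_r (r := r)
  have h1 : complexConjugation ζ = ζ ^ (cycr r complexConjugation : ZMod r).val :=
    cycr_spec _ hζ.pow_eq_one
  have h2 : complexConjugation ζ * ζ = 1 := by
    have h3 : (complexEmbedding ζ) ^ r = 1 := by rw [← map_pow, hζ.pow_eq_one, map_one]
    have h4 : ‖complexEmbedding ζ‖ = 1 := Complex.norm_eq_one_of_pow_eq_one h3 hr.out.ne_zero
    have h5 : complexEmbedding (complexConjugation ζ * ζ) = complexEmbedding 1 := by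
      rw [map_mul, map_one, complexEmbedding_complexConjugation, mul_comm, Complex.mul_conj,
        Complex.normSq_eq_norm_sq, h4]
      simp
    exact complexEmbedding.injective h5
  rw [h1, ← pow_succ] at h2
  have h5 := (hζ.pow_eq_one_iff_dvd _).mp h2
  have h6 : (((cycr r complexConjugation : ZMod r).val + 1 : ℕ) : ZMod r) = 0 :=
    (ZMod.natCast_eq_zero_iff _ _).mpr h5
  have hne : NeZero r := ⟨hr.out.ne_zero⟩
  push_cast at h6
  rw [ZMod.natCast_zmod_val] at h6
  exact eq_neg_of_add_eq_zero_left h6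

/-- for `r ≡ 3 mod 4` the auxiliary character is odd -/
theorem chiF_complexConjugation (hr4 : r % 4 = 3)
    (hΛ : ∀ x, Λ x = 1 ↔ x ^ ((r - 1) / 2) = 1) :
    chiF Λ complexConjugation = Multiplicative.ofAdd 1 := by
  have h1 : chiF Λ complexConjugation ≠ 1 := by
    intro h
    have h2 : Λ (cycr r complexConjugation) = 1 := h
    rw [hΛ] at h2
    have h3 := congrArg Units.val h2
    rw [Units.val_pow_eq_pow_val, cycr_complexConjugation, Units.val_one,
      Odd.neg_one_pow (by rw [Nat.odd_iff]; omega)] at h3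
    have h4 : (2 : ZMod r) = 0 := by
      have : (1 : ZMod r) + 1 = 0 := by
        nth_rw 1 [← h3]
        exact neg_add_cancel 1
      rw [← this]
      norm_num
    have h5 : ((2 : ℕ) : ZMod r) = 0 := by exact_mod_cast h4
    rw [ZMod.natCast_eq_zero_iff] at h5
    have h6 := Nat.le_of_dvd (by norm_num) h5
    omega
  have h7 : ∀ x : Multiplicative (ZMod 2), x ≠ 1 → x = Multiplicative.ofAdd 1 := by decide
  exact h7 _ h1

theorem chiF_conj (g c : Qb ≃ₐ[ℚ] Qb) : chiF Λ (g⁻¹ * c * g) = chiF Λ c := by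
  rw [map_mul, map_mul, map_inv, mul_comm, mul_inv_cancel_left]

/-- the fixed fields of the subgroups of `ker chiF` are totally complex -/
theorem isTotallyComplex_of_le (hr4 : r % 4 = 3)
    (hΛ : ∀ x, Λ x = 1 ↔ x ^ ((r - 1) / 2) = 1) {V : Subgroup (Qb ≃ₐ[ℚ] Qb)}
    (hV : (krull ℚ Qb).IsOpen V) (hle : V ≤ (chiF Λ).ker) :
    IsTotallyComplex (IntermediateField.fixedField V) := by
  refine isTotallyComplex_fixedField hV fun g hg => ?_
  have h1 : chiF Λ (g⁻¹ * complexConjugation * g) = 1 := hle hg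
  rw [chiF_conj, chiF_complexConjugation Λ hr4 hΛ] at h1
  have h2 : (Multiplicative.ofAdd (1 : ZMod 2)) ≠ 1 := by decide
  exact h2 h1

/-- We can take a positive integer as representative. -/
theorem exists_natCast_two (hr4 : r % 4 = 3) (hΛ : ∀ x, Λ x = 1 ↔ x ^ ((r - 1) / 2) = 1)
    {ζ : Qbˣ} (hζ : IsPrimitiveRoot ζ 2)
    {z : (Qb ≃ₐ[ℚ] Qb) × (Qb ≃ₐ[ℚ] Qb) → ZMod 2}
    (hc : z (complexConjugation, complexConjugation) = z (1, 1)) {x : Qbˣ}
    (hx : ∀ g : Qb ≃ₐ[ℚ] Qb, g • x = x) (h : CycRel (krull ℚ Qb) (chiF Λ) ζ z x) :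
    ∃ (n : ℕ) (hn : n ≠ 0), CycRel (krull ℚ Qb) (chiF Λ) ζ z (uN hn) := by
  have K := kdataQ (p := 2) hζ
  have h1 : (x : Qb) ∈ (⊥ : IntermediateField ℚ Qb) := by
    rw [← InfiniteGalois.fixedField_bot (k := ℚ) (K := Qb)]
    rintro ⟨g, -⟩
    exact congrArg Units.val (hx g)
  rw [IntermediateField.mem_bot] at h1
  obtain ⟨a, ha⟩ := h1
  have ha' : (x : Qb) = (a : Qb) := by rw [← ha]; exact eq_ratCast _ a
  have ha0 : a ≠ 0 := by
    rintro rfl
    rw [map_zero] at ha
    exact x.ne_zero ha.symm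
  -- positivity
  have hapos : 0 < a := by
    obtain ⟨f, hf, h2⟩ := h
    have hcc : complexConjugation * complexConjugation = 1 := complexConjugation_mul_self
    have hθ := chiF_complexConjugation Λ hr4 hΛ
    have h3 := h2 (complexConjugation, complexConjugation)
    have h4 := h2 (1, 1)
    rw [hc, h4] at h3
    have e1 : cyc (chiF Λ) x (complexConjugation, complexConjugation) = x := by
      unfold cyc
      have e2 : ix (chiF Λ) complexConjugation = 1 := by
        unfold ix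
        rw [hθ]
        rfl
      simp only [e2]
      norm_num
    have e3 : cyc (chiF Λ) x (1, 1) = 1 := by
      unfold cyc
      have e2 : ix (chiF Λ) (1 : Qb ≃ₐ[ℚ] Qb) = 0 := by
        unfold ix
        rw [map_one]
        rfl
      simp only [e2]
      norm_num
    rw [e1, e3, mdiff_apply, mdiff_apply] at h3
    simp only [hcc, mul_one, one_smul, one_mul] at h3
    rw [mul_div_cancel_right] at h3
    -- `f 1 = ±1`
    have h5 : f 1 * f 1 = 1 := by
      rw [e3, mdiff_apply] at h4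
      simp only [mul_one, one_smul, one_mul] at h4
      rw [mul_div_cancel_right] at h4
      rw [← h4, ← sq]
      exact zp_pow K.pow _
    have h6 : x * (complexConjugation • f complexConjugation * f complexConjugation) = 1 := by
      have h7 : f 1 * f 1 =
          x * (complexConjugation • f complexConjugation * f complexConjugation) := by
        nth_rw 1 [h3]
        rw [mul_assoc, div_mul_cancel]
      rw [← h7, h5]
    have h8 := congrArg (fun y : Qbˣ => complexEmbedding (y : Qb)) h6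
    simp only [Units.val_mul, map_mul, Units.val_one, map_one] at h8
    have h9 : complexEmbedding ((complexConjugation • f complexConjugation : Qbˣ) : Qb) =
        starRingEnd ℂ (complexEmbedding (f complexConjugation : Qb)) :=
      complexEmbedding_complexConjugation _
    rw [h9, ha', map_ratCast, mul_comm (starRingEnd ℂ _), Complex.mul_conj] at h8
    have h10 : (a : ℝ) * Complex.normSq (complexEmbedding (f complexConjugation : Qb)) = 1 := by
      have := congrArg Complex.re h8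
      rw [Complex.one_re] at this
      rw [← this]
      have e : ((a : ℚ) : ℂ) = (((a : ℚ) : ℝ) : ℂ) := by push_cast; rfl
      rw [e, ← Complex.ofReal_mul, Complex.ofReal_re]
    have h11 : (0 : ℝ) < a := by
      by_contra hcon
      push Not at hcon
      have := mul_nonpos_of_nonpos_of_nonneg hcon
        (Complex.normSq_nonneg (complexEmbedding (f complexConjugation : Qb)))
      rw [h10] at this
      linarith
    exact_mod_cast h11
  have hden : a.den ≠ 0 := a.den_nz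
  have hnum0 : a.num.natAbs ≠ 0 := by
    rw [Int.natAbs_ne_zero]
    exact Rat.num_ne_zero.mpr ha0
  have hn : a.num.natAbs * a.den ≠ 0 := mul_ne_zero hnum0 hden
  refine ⟨a.num.natAbs * a.den, hn, ?_⟩
  have hc0 : ((a.den : ℕ) : Qb) ≠ 0 := by exact_mod_cast hden
  let c : Qbˣ := Units.mk0 _ hc0
  have hc' : ∀ g : Qb ≃ₐ[ℚ] Qb, g • c = c := fun g => Units.ext (map_natCast g _)
  have h2 := h.add K.pow (CycRel.pow_p (θ := chiF Λ) (ζ := ζ) (isOpen_ker_chiF Λ) hc')
  rw [add_zero] at h2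
  convert h2 using 1
  apply Units.ext
  rw [coe_uN, Units.val_mul, Units.val_pow_eq_pow_val, ha']
  show _ = (a : Qb) * ((a.den : ℕ) : Qb) ^ 2
  have hd : (a : Qb) * (a.den : Qb) = (a.num : Qb) := by
    have := Rat.mul_den_eq_num a
    exact_mod_cast congrArg (Rat.cast (K := Qb)) this
  have h3 : ((a.num.natAbs : ℕ) : Qb) = (a.num : Qb) := by
    have h4 : ((a.num.natAbs : ℕ) : ℤ) = a.num :=
      Int.natAbs_of_nonneg (Rat.num_nonneg.mpr hapos.le)
    rw [← Int.cast_natCast (R := Qb), h4]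
  rw [Nat.cast_mul, h3, ← hd]
  ring

/-- **Reciprocity over `ℚ` in degree two**: the sum of the local invariants of a class which is
trivial at infinity is zero. -/
theorem exists_sum_eq_zero
    (hHN : ∀ K : IntermediateField ℚ Qb, ∀ [NumberField K], IsTotallyComplex K → HasseNormK 2 K)
    (S : Finset Nat.Primes) (h2S : ∃ v ∈ S, (v : ℕ) = 2) :
    ∃ inv : ∀ v : ↥S, LC.H2 (mu ((cycloChar 2).comp (primeLocalToGlobal v.1)))
        (lvlOver (primeLocalToGlobal v.1)) →ₗ[ZMod 2] ZMod 2,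
      (∀ v, inv v ≠ 0) ∧
      ∀ z : Z2 (mu (cycloChar 2)) (unram S),
        z.1 (complexConjugation, complexConjugation) = z.1 (1, 1) →
        ∑ v : ↥S, inv v ((resMu (cycloChar 2) (primeLocalToGlobal v.1) (cont_locS S v)).H2
            (H2.mk (mu (cycloChar 2)) (unram S) z)) = 0 := by
  classical
  obtain ⟨r, hr, -, hrS, hr8, hrS2⟩ := exists_aux_prime_two
    (S.image (fun q : Nat.Primes => (q : ℕ))) (fun q hq => by
      obtain ⟨q', -, rfl⟩ := Finset.mem_image.mp hq
      exact q'.2) 0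
  have hrF : Fact r.Prime := ⟨hr⟩
  have hpr : 2 ∣ r - 1 := by omega
  have hr4 : r % 4 = 3 := by omega
  obtain ⟨Λ, hΛ, hΛ'⟩ := exists_dlog (p := 2) (r := r) hpr
  obtain ⟨ζ, hζ⟩ := exists_primitiveRoot_units (p := 2)
  have hSr : ∀ q ∈ S, (q : ℕ) ≠ r := fun q hq h =>
    hrS (Finset.mem_image.mpr ⟨q, hq, h⟩)
  have hell : ∀ q ∈ S, ell Λ (q : ℕ) ≠ 0 := by
    intro q hq h
    have hcop : (q : ℕ).Coprime r := (Nat.coprime_primes q.2 hr).mpr (hSr q hq)
    rw [ell_of_coprime Λ hcop] at h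
    have h1 : Λ (ZMod.unitOfCoprime (q : ℕ) hcop) = 1 := h
    rw [hΛ'] at h1
    refine hrS2 (q : ℕ) (Finset.mem_image.mpr ⟨q, hq, rfl⟩) ?_
    have h2 := congrArg Units.val h1
    simpa using h2
  have hth : ∀ q ∈ S, thF (q : ℕ) Λ ≠ 1 := fun q hq =>
    thF_ne_one_of_ell (q : ℕ) Λ (hSr q hq) (hell q hq)
  have hHN' : HN 2 (chiF Λ).ker := fun V hV hVU _ =>
    hHN _ (isTotallyComplex_of_le Λ hr4 hΛ' hV hVU)
  choose l hl0 hl using fun v : ↥S =>
    exists_lambda_prime Λ S v (hSr v.1 v.2) (hth v.1 v.2) hζ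
  refine ⟨fun v => ell Λ (v.1 : ℕ) • l v, fun v => smul_ne_zero (hell v.1 v.2) (hl0 v), ?_⟩
  intro z hzc
  have hz := (mem_Z2 _ _).mp z.2
  have hz1 : ∀ g h j, z.1 (g * h, j) + z.1 (g, h) =
      (cycloChar 2 g : ZMod 2) * z.1 (h, j) + z.1 (g, h * j) := by
    intro g h j
    have h1 := hz.1 g h j
    rw [mu_apply] at h1
    exact h1
  obtain ⟨x, hx, h1⟩ := exists_cycRel_global Λ hHN' hΛ h2S hth hζ hz1 hz.2
  obtain ⟨n, hn, h2⟩ := exists_natCast_two Λ hr4 hΛ' hζ hzc hx h1
  have h3 := sum_eq_zero Λ hpr hΛ hΛ' hSr h2S hζ hz1 hz.2 hn h2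
  rw [← h3, ← Finset.sum_coe_sort S]
  refine Finset.sum_congr rfl fun v _ => ?_
  rw [LinearMap.smul_apply, hl v z n hn h2, smul_eq_mul, mul_comm]

end Two

end Fermat.Agent.P2.Hasse
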