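import Mathlib
import Fermat.Agent.P2.Hasse.Recip
import Fermat.Agent.LT.I8.Hasse2

/-!
# The sum formula for `H²(G_{ℚ,S}, μ_2)`, unconditional
-/

set_option autoImplicit false
set_option linter.unusedSectionVars false

open ExtCitation NumberField

namespace Fermat.Agent.P2.Hasse

open Fermat.Agent.CFT Fermat.Agent.CFT.Hasse
open Fermat.Agent.CFT.LC Fermat.Agent.CFT.D3 Fermat.Agent.CFT.PT Fermat.Agent.CFT.W
open IntermediateField

/-- An algebraic closure of `ℚ`. -/
local notation "Qb" => AlgebraicClosure ℚ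

local instance instFactPrimes5 (q : Nat.Primes) : Fact (q : ℕ).Prime := ⟨q.2⟩

theorem hasseNormK_two (K : Type) [Field K] [NumberField K] (h : IsTotallyComplex K) {p : ℕ}
    (hp : p.Prime) : HasseNormK p K :=
  fun hζ _ _ _ _ _ _ _ hD hα x hx => LT.I8.hasse_norm hp hζ hD hα x hx

/-- **Reciprocity over `ℚ` in degree two** -/
theorem exists_inv_two (S : Finset Nat.Primes) (h2S : ∃ v ∈ S, (v : ℕ) = 2) :
    ∃ inv : ∀ v : ↥S, LC.H2 (mu ((cycloChar 2).comp (primeLocalToGlobal v.1)))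
        (lvlOver (primeLocalToGlobal v.1)) →ₗ[ZMod 2] ZMod 2,
      (∀ v, Function.Injective (inv v)) ∧
      ∀ z : Z2 (mu (cycloChar 2)) (unram S),
        z.1 (complexConjugation, complexConjugation) = z.1 (1, 1) →
        ∑ v : ↥S, inv v ((resMu (cycloChar 2) (primeLocalToGlobal v.1) (cont_locS S v)).H2
            (H2.mk (mu (cycloChar 2)) (unram S) z)) = 0 := by
  obtain ⟨inv, h0, h⟩ := exists_sum_eq_zero
    (fun K _ hK => hasseNormK_two K hK Nat.prime_two) S h2S
  refine ⟨inv, fun v => ?_, h⟩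
  have h1 := finrank_H2_mu_prime v.1 2
  have hfd := FiniteDimensional.of_finrank_eq_succ h1
  have hsurj : Function.Surjective (inv v) := by
    rw [← LinearMap.range_eq_top]
    have h2 : LinearMap.range (inv v) ≠ ⊥ := fun h3 => h0 v (LinearMap.range_eq_bot.mp h3)
    exact (eq_bot_or_eq_top _).resolve_left h2
  exact (LinearMap.injective_iff_surjective_of_finrank_eq_finrank
    (h1.trans (Module.finrank_self (ZMod 2)).symm)).mpr hsurj

/-- If a 2-cocycle with values in `μ_2` is trivial at infinity and at all primes but one, it is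
trivial everywhere. -/
theorem loc_cob (S : Finset Nat.Primes) (h2S : ∃ v ∈ S, (v : ℕ) = 2)
    {z : (Qb ≃ₐ[ℚ] Qb) × (Qb ≃ₐ[ℚ] Qb) → ZMod 2}
    (hz : ∀ g h j, z (g * h, j) + z (g, h) = z (h, j) + z (g, h * j))
    (hzl : IsLC₂ (unram S) z)
    (hc : z (complexConjugation, complexConjugation) = z (1, 1)) (v₀ : ↥S)
    (h : ∀ v : ↥S, v ≠ v₀ → ∃ w : primeLocalGaloisGroup v.1 → ZMod 2,
      IsLC₁ (lvlOver (primeLocalToGlobal v.1)) w ∧
      ∀ a b, z (primeLocalToGlobal v.1 a, primeLocalToGlobal v.1 b) = w b - w (a * b) + w a) :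
    ∃ w : primeLocalGaloisGroup v₀.1 → ZMod 2,
      IsLC₁ (lvlOver (primeLocalToGlobal v₀.1)) w ∧
      ∀ a b, z (primeLocalToGlobal v₀.1 a, primeLocalToGlobal v₀.1 b) = w b - w (a * b) + w a := by
  classical
  obtain ⟨inv, hinj, hsum⟩ := exists_inv_two S h2S
  have hχ : ∀ g, cycloChar 2 g = 1 := fun g => Subsingleton.elim _ _
  have hz2 : z ∈ Z2 (mu (cycloChar 2)) (unram S) := by
    rw [mem_Z2]
    refine ⟨fun a b c => ?_, hzl⟩
    rw [mu_apply, hχ, Units.val_one, one_mul]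
    exact hz a b c
  have h1 := hsum ⟨z, hz2⟩ hc
  rw [Finset.sum_eq_single v₀] at h1
  · have h2 := hinj v₀ (h1.trans (map_zero _).symm)
    rw [Mor.H2_mk, H2.mk_eq_zero_iff] at h2
    obtain ⟨w, hw, hw2⟩ := h2
    refine ⟨w, hw, fun a b => ?_⟩
    have h3 := congrFun hw2 (a, b)
    rw [d1_apply, mu_apply, MonoidHom.comp_apply, hχ, Units.val_one, one_mul] at h3
    exact h3.symm
  · intro v _ hv
    obtain ⟨w, hw, hw2⟩ := h v hv
    have h3 : (resMu (cycloChar 2) (primeLocalToGlobal v.1) (cont_locS S v)).H2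
            (H2.mk (mu (cycloChar 2)) (unram S) ⟨z, hz2⟩) = 0 := by
      rw [Mor.H2_mk, H2.mk_eq_zero_iff]
      refine ⟨w, hw, ?_⟩
      ext ⟨a, b⟩
      rw [d1_apply, mu_apply, MonoidHom.comp_apply, hχ, Units.val_one, one_mul]
      exact (hw2 a b).symm
    rw [h3, map_zero]
  · intro h
    exact absurd (Finset.mem_univ _) h

end Fermat.Agent.P2.Hasse
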